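import Mathlib
import Fermat.Agent.S41.H761.HKTransfer

/-!
# S59 / cell NM / leaf IHARA2 (helper161): two abstract lemmas on groups

* `conj_invariant_of_two` (**two Borels**): `f₁ : H₁ → G`, `f₂ : H₂ → G` with ranges generating `G`,
  characters `ψ₁` of `H₁`, `ψ₂` of `H₂` which agree on `f₁(H₁) ∩ f₂(H₂)`, `K ⊴ G` contained in both
  ranges.  Then `ψ₁` restricted to `K` is invariant under conjugation by `G`.
* `transferAlong_apply_of_normal` : the transfer of a character `ψ` of `H₁` whose restriction to a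
  normal subgroup `K ≤ f(H₁)` of `G` is `G`-invariant is `[G : H₁] ψ` on `K`.
-/

set_option autoImplicit false

namespace Fermat.Agent.S59.H161

open Fermat.Agent.S41.Spec Fermat.Agent.S41.H761

section Abs

variable {G H₁ H₂ : Type*} [Group G] [Group H₁] [Group H₂] {A : Type*} [AddCommGroup A]

/-- **Two Borels.** -/
theorem conj_invariant_of_two (f₁ : H₁ →* G) (f₂ : H₂ →* G) (hf₁ : Function.Injective f₁)
    (ψ₁ : Additive H₁ →+ A) (ψ₂ : Additive H₂ →+ A)
    (hagree : ∀ (a : H₁) (b : H₂), f₁ a = f₂ b → ψ₁ (Additive.ofMul a) = ψ₂ (Additive.ofMul b))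
    (K : Subgroup G) [hKn : K.Normal] (hK₁ : K ≤ f₁.range) (hK₂ : K ≤ f₂.range)
    (hgen : f₁.range ⊔ f₂.range = ⊤)
    (n n' : H₁) (g : G) (hn : f₁ n ∈ K) (hc : f₁ n' = g⁻¹ * f₁ n * g) :
    ψ₁ (Additive.ofMul n') = ψ₁ (Additive.ofMul n) := by
  let I : Subgroup G :=
    { carrier := {g | ∀ n n' : H₁, f₁ n ∈ K → f₁ n' = g⁻¹ * f₁ n * g →
        ψ₁ (Additive.ofMul n') = ψ₁ (Additive.ofMul n)}
      one_mem' := by
        intro n n' _ hc
        have : n' = n := hf₁ (by simpa using hc)
        rw [this]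
      mul_mem' := by
        intro g h hg hh n n' hn hc
        -- the middle element
        have hm : g⁻¹ * f₁ n * g ∈ K := by
          have := hKn.conj_mem (f₁ n) hn g⁻¹
          simpa using this
        obtain ⟨m, hm'⟩ := hK₁ hm
        have e1 := hg n m hn hm'
        have e2 := hh m n' (hm' ▸ hm) (by rw [hc, hm']; group)
        rw [e2, e1]
      inv_mem' := by
        intro g hg n n' hn hc
        have hn' : f₁ n' ∈ K := by
          rw [hc]
          have := hKn.conj_mem (f₁ n) hn g
          simpa using this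
        exact (hg n' n hn' (by rw [hc]; group)).symm }
  have h1 : f₁.range ≤ I := by
    rintro _ ⟨a, rfl⟩ n n' _ hc
    have : n' = a⁻¹ * n * a := hf₁ (by rw [hc]; simp)
    rw [this, ofMul_mul, ofMul_mul, ofMul_inv, map_add, map_add, map_neg]
    abel
  have h2 : f₂.range ≤ I := by
    rintro _ ⟨b, rfl⟩ n n' hn hc
    obtain ⟨m, hm⟩ := hK₂ hn
    have e1 : ψ₁ (Additive.ofMul n) = ψ₂ (Additive.ofMul m) := hagree n m hm.symm
    have e2 : ψ₁ (Additive.ofMul n') = ψ₂ (Additive.ofMul (b⁻¹ * m * b)) :=
      hagree n' (b⁻¹ * m * b) (by rw [hc, ← hm]; simp)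
    rw [e2, e1, ofMul_mul, ofMul_mul, ofMul_inv, map_add, map_add, map_neg]
    abel
  have h3 : g ∈ I := by
    have := sup_le h1 h2
    rw [hgen] at this
    exact this (Subgroup.mem_top g)
  exact h3 n n' hn hc

/-- The transfer on a normal subgroup on which the character is invariant. -/
theorem transferAlong_apply_of_normal (f : H₁ →* G) (hf : Function.Injective f)
    [hfin : f.range.FiniteIndex] (ψ : Additive H₁ →+ A) (K : Subgroup G) [hKn : K.Normal]
    (hK : K ≤ f.range)
    (hinv : ∀ (n n' : H₁) (g : G), f n ∈ K → f n' = g⁻¹ * f n * g →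
      ψ (Additive.ofMul n') = ψ (Additive.ofMul n))
    (n : H₁) (hn : f n ∈ K) :
    transferAlong f ψ (Additive.ofMul (f n)) = f.range.index • ψ (Additive.ofMul n) := by
  classical
  let _ : Fintype (G ⧸ f.range) := f.range.fintypeQuotientOfFiniteIndex
  rw [transferAlong_eq f hf (MonoidHom.id G) Function.injective_id, IsCosetSystem.transfer_apply]
  have key : ∀ x : G ⧸ f.range,
      ψ (Additive.ofMul ((IsCosetSystem.ofTransfer f hf (MonoidHom.id G)
        Function.injective_id).coc x (f n))) = ψ (Additive.ofMul n) := by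
    intro x
    have hact := (IsCosetSystem.ofTransfer_act f hf (MonoidHom.id G) Function.injective_id
      x (f n)).2
    have hx : (f n)⁻¹ • x = x := by
      have h1 : ((f n)⁻¹ • x) = (((f n)⁻¹ * x.out : G) : G ⧸ f.range) := by
        conv_lhs => rw [← QuotientGroup.out_eq' x]
        rfl
      rw [h1]
      conv_rhs => rw [← QuotientGroup.out_eq' x]
      rw [QuotientGroup.eq]
      apply hK
      have := hKn.conj_mem (f n) hn (x.out)⁻¹
      simpa [mul_assoc] using this
    rw [hx] at hact
    exact hinv n _ x.out hn hact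
  rw [Finset.sum_congr rfl (fun x _ => key x), Finset.sum_const, Finset.card_univ,
    ← Nat.card_eq_fintype_card]
  rfl

end Abs

end Fermat.Agent.S59.H161
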