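import Mathlib
import Fermat.Agent.S59.H161.Ihara2.Abs
import Fermat.Agent.S41.H161.IK.US
import Fermat.Agent.S41.H105.TransferRestrict

/-!
# S59 / cell NM / leaf IHARA2 (helper161): the two Borel subgroups of `Γ₀(N)` at `q`

`G = Γ₀(N)`, `G₁ = Γ₀(N q)` (range of `incl`), `G₂ = Γ₀(N) ∩ Γ⁰(q)` (range of `conjDelta`),
`K = Γ₀(N) ∩ Γ(q) ≤ G₁ ∩ G₂`, `⟨G₁, G₂⟩ = G`.

Main result `t₁_apply_of_mem_Gamma` : for characters `u, v` of `Γ₀(N q)` with
`r₁' u + r₂' v = 0` on `Γ₀(N q²)`, the transfer `t₁ v` is `(q + 1) v` on `Γ₀(N q) ∩ Γ(q)`.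
-/

set_option autoImplicit false

namespace Fermat.Agent.S59.H161

open CongruenceSubgroup Matrix.SpecialLinearGroup
open Fermat.Agent.S29.H642 Fermat.Agent.S41.Spec Fermat.Agent.S41.H161
open scoped MatrixGroups

variable {N q : ℕ} {A : Type*} [AddCommGroup A]

/-- `K = Γ₀(N) ∩ Γ(q)` as a subgroup of `Γ₀(N)`. -/
def coreK (N q : ℕ) : Subgroup (Gamma0 N) := (Gamma q).subgroupOf (Gamma0 N)

instance coreK_normal (N q : ℕ) : (coreK N q).Normal := by
  unfold coreK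
  haveI : (Gamma q).Normal := Gamma_normal q
  infer_instance

theorem mem_coreK_iff (g : Gamma0 N) : g ∈ coreK N q ↔ (g : SL(2, ℤ)) ∈ Gamma q := Iff.rfl

theorem dvd_of_mem_Gamma_10 {g : SL(2, ℤ)} (hg : g ∈ Gamma q) : (q : ℤ) ∣ g 1 0 := by
  rw [Gamma_mem] at hg
  exact (ZMod.intCast_zmod_eq_zero_iff_dvd _ _).mp hg.2.2.1

theorem dvd_of_mem_Gamma_01 {g : SL(2, ℤ)} (hg : g ∈ Gamma q) : (q : ℤ) ∣ g 0 1 := by
  rw [Gamma_mem] at hg
  exact (ZMod.intCast_zmod_eq_zero_iff_dvd _ _).mp hg.2.1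

theorem coreK_le_incl (hq : q.Prime) (hqN : ¬ q ∣ N) : coreK N q ≤ (incl N q).range := by
  intro g hg
  exact (Fermat.Agent.S41.H105.mem_range_incl_iff hq hqN g).mpr (dvd_of_mem_Gamma_10 hg)

theorem coreK_le_conjDelta (hq : q ≠ 0) : coreK N q ≤ (conjDelta N q).range := by
  intro g hg
  exact (Fermat.Agent.S41.H105.mem_range_conjDelta_iff N hq g).mpr (dvd_of_mem_Gamma_01 hg)

/-- `⟨Γ₀(N q), Γ₀(N) ∩ Γ⁰(q)⟩ = Γ₀(N)`. -/
theorem sup_range_eq_top (hq : q.Prime) (hqN : ¬ q ∣ N) :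
    (incl N q).range ⊔ (conjDelta N q).range = ⊤ := by
  have hqZ : Prime (q : ℤ) := Nat.prime_iff_prime_int.mp hq
  have hNq : IsCoprime (N : ℤ) (q : ℤ) := by
    rw [Int.isCoprime_iff_gcd_eq_one, Int.gcd_natCast_natCast]
    exact ((Nat.Prime.coprime_iff_not_dvd hq).mpr hqN).symm
  have key : ∀ g : Gamma0 N, ¬ (q : ℤ) ∣ (g : SL(2, ℤ)) 0 0 →
      g ∈ (incl N q).range ⊔ (conjDelta N q).range := by
    intro g ha
    have hcop : IsCoprime ((N : ℤ) * (g : SL(2, ℤ)) 0 0) (q : ℤ) :=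
      hNq.mul_left (isCoprime_of_prime_not_dvd hq ha)
    obtain ⟨s, r, hsr⟩ := hcop
    set t : ℤ := -((g : SL(2, ℤ)) 1 0 * s) with ht
    let L : Gamma0 N := mk0 N 1 0 (N * t) 1 (by ring) (Dvd.intro _ rfl)
    have hL : L ∈ (conjDelta N q).range :=
      (Fermat.Agent.S41.H105.mem_range_conjDelta_iff N hq.ne_zero L).mpr (by simp [L])
    have hLg : L * g ∈ (incl N q).range := by
      rw [Fermat.Agent.S41.H105.mem_range_incl_iff hq hqN, mul_10]
      simp only [L, mk0_10, mk0_11, one_mul]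
      refine ⟨(g : SL(2, ℤ)) 1 0 * r, ?_⟩
      rw [ht]
      linear_combination (-((g : SL(2, ℤ)) 1 0)) * hsr
    have e : g = L⁻¹ * (L * g) := by group
    rw [e]
    exact Subgroup.mul_mem _ (Subgroup.inv_mem _ (Subgroup.mem_sup_right hL))
      (Subgroup.mem_sup_left hLg)
  rw [eq_top_iff]
  intro g _
  by_cases ha : (q : ℤ) ∣ (g : SL(2, ℤ)) 0 0
  · -- use `U g`
    have hU : upU N ∈ (incl N q).range :=
      (Fermat.Agent.S41.H105.mem_range_incl_iff hq hqN _).mpr (by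
        rw [← upZ_one]; simp [upZ])
    have hUg : upU N * g ∈ (incl N q).range ⊔ (conjDelta N q).range := by
      apply key
      rw [mul_00, ← upZ_one]
      simp only [upZ, mk0_00, mk0_01, one_mul]
      intro h
      have hc : (q : ℤ) ∣ (g : SL(2, ℤ)) 1 0 := (dvd_add_right ha).mp h
      have hdet := det_eq g
      have h1 : (q : ℤ) ∣ 1 := by
        rw [← hdet]
        exact dvd_sub (Dvd.dvd.mul_right ha _) (Dvd.dvd.mul_left hc _)
      exact hqZ.not_unit (isUnit_of_dvd_one h1)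
    have e : g = (upU N)⁻¹ * (upU N * g) := by group
    rw [e]
    exact Subgroup.mul_mem _ (Subgroup.inv_mem _ (Subgroup.mem_sup_left hU)) hUg
  · exact key g ha

/-- `incl ∘ c_δ' = c_δ ∘ incl'` on `Γ₀(N q²)`. -/
theorem incl_conjDelta (γ : Gamma0 (N * q * q)) :
    incl N q (conjDelta (N * q) q γ) = conjDelta N q (incl (N * q) q γ) := rfl

/-- The two characters `v` on `G₁` and `-u ∘ c_δ⁻¹` on `G₂` agree on `G₁ ∩ G₂`. -/
theorem agree_of_rel (hq : q ≠ 0) (u v : Additive (Gamma0 (N * q)) →+ A)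
    (hR : r₁ (N * q) q u + r₂ (N * q) q v = 0) (a b : Gamma0 (N * q))
    (hab : incl N q a = conjDelta N q b) :
    v (Additive.ofMul a) = (-u) (Additive.ofMul b) := by
  have h01 : (q : ℤ) ∣ (a : SL(2, ℤ)) 0 1 := by
    have h := congrArg (fun g : Gamma0 N => (g : SL(2, ℤ)) 0 1) hab
    simp only [incl_apply, conjDelta_01] at h
    exact ⟨_, h⟩
  obtain ⟨a', rfl⟩ := (Fermat.Agent.S41.H105.mem_range_conjDelta_iff (N * q) hq a).mpr h01
  rw [incl_conjDelta] at hab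
  have hb : b = incl (N * q) q a' :=
    (Fermat.Agent.S41.H105.conjDelta_injective N hq hab).symm
  have h := ker_apply hR a'
  rw [hb, AddMonoidHom.neg_apply]
  exact eq_neg_of_add_eq_zero_right h

/-- `v` restricted to `K` is invariant under conjugation by `Γ₀(N)`. -/
theorem conj_invariant (hq : q.Prime) (hqN : ¬ q ∣ N) (u v : Additive (Gamma0 (N * q)) →+ A)
    (hR : r₁ (N * q) q u + r₂ (N * q) q v = 0) (n n' : Gamma0 (N * q)) (g : Gamma0 N)
    (hn : incl N q n ∈ coreK N q) (hc : incl N q n' = g⁻¹ * incl N q n * g) :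
    v (Additive.ofMul n') = v (Additive.ofMul n) :=
  conj_invariant_of_two (incl N q) (conjDelta N q) (Fermat.Agent.S41.H105.incl_injective N q)
    v (-u) (agree_of_rel hq.ne_zero u v hR) (coreK N q) (coreK_le_incl hq hqN)
    (coreK_le_conjDelta hq.ne_zero) (sup_range_eq_top hq hqN) n n' g hn hc

/-- **The transfer on `K`**: `(t₁ v)(n) = (q + 1) v(n)` for `n ∈ Γ₀(N q) ∩ Γ(q)`. -/
theorem t₁_apply_of_mem_Gamma (hN : N ≠ 0) (hq : q.Prime) (hqN : ¬ q ∣ N)
    (u v : Additive (Gamma0 (N * q)) →+ A)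
    (hR : r₁ (N * q) q u + r₂ (N * q) q v = 0) (n : Gamma0 (N * q))
    (hn : (n : SL(2, ℤ)) ∈ Gamma q) :
    t₁ N q v (Additive.ofMul (incl N q n)) = (q + 1) • v (Additive.ofMul n) := by
  haveI : (incl N q).range.FiniteIndex :=
    ⟨by rw [Fermat.Agent.S41.H105.index_range_incl hN hq hqN]; omega⟩
  have h := transferAlong_apply_of_normal (incl N q) (Fermat.Agent.S41.H105.incl_injective N q)
    v (coreK N q) (coreK_le_incl hq hqN)
    (fun n n' g hn hc => conj_invariant hq hqN u v hR n n' g hn hc) n hn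
  rw [Fermat.Agent.S41.H105.index_range_incl hN hq hqN] at h
  exact h

end Fermat.Agent.S59.H161
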