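import Mathlib
import Fermat.Agent.S41.H281.HK
import Fermat.Agent.S59.NM.Spec

/-!
# S59 / cell NM / leaf IHARA2 (helper161): linearity of `r₁, r₂, t₁, t₂, T_l`, eigenclasses

Coefficients in a field `k` (any commutative ring would do).
-/

set_option autoImplicit false

namespace Fermat.Agent.S59.H161

open CongruenceSubgroup Matrix.SpecialLinearGroup
open Fermat.Agent.S29.H642 Fermat.Agent.S41.Spec
open Fermat.Agent.S59.NM
open scoped MatrixGroups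

variable {k : Type} [Field k] {N q : ℕ}

theorem smul_eq_mulLeft_comp {G : Type*} [AddZeroClass G] (c : k) (φ : G →+ k) :
    c • φ = (AddMonoidHom.mulLeft c).comp φ := by
  refine AddMonoidHom.ext fun x => ?_
  simp

theorem natCast_smul_hom {G : Type*} [AddZeroClass G] (n : ℕ) (φ : G →+ k) :
    (n : k) • φ = n • φ := by
  refine AddMonoidHom.ext fun x => ?_
  simp [nsmul_eq_mul]

/-! ### `r₁`, `r₂` -/

theorem r₁_add' (φ ψ : Additive (Gamma0 N) →+ k) : r₁ N q (φ + ψ) = r₁ N q φ + r₁ N q ψ := rfl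

theorem r₂_add' (φ ψ : Additive (Gamma0 N) →+ k) : r₂ N q (φ + ψ) = r₂ N q φ + r₂ N q ψ := rfl

theorem r₁_smul' (c : k) (φ : Additive (Gamma0 N) →+ k) : r₁ N q (c • φ) = c • r₁ N q φ := rfl

theorem r₂_smul' (c : k) (φ : Additive (Gamma0 N) →+ k) : r₂ N q (c • φ) = c • r₂ N q φ := rfl

theorem r₁_zero' : r₁ N q (0 : Additive (Gamma0 N) →+ k) = 0 := rfl

theorem r₂_zero' : r₂ N q (0 : Additive (Gamma0 N) →+ k) = 0 := rfl

theorem r₁_neg' (φ : Additive (Gamma0 N) →+ k) : r₁ N q (-φ) = -r₁ N q φ := rfl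

theorem r₂_neg' (φ : Additive (Gamma0 N) →+ k) : r₂ N q (-φ) = -r₂ N q φ := rfl

theorem r₁_sub' (φ ψ : Additive (Gamma0 N) →+ k) : r₁ N q (φ - ψ) = r₁ N q φ - r₁ N q ψ := rfl

theorem r₂_sub' (φ ψ : Additive (Gamma0 N) →+ k) : r₂ N q (φ - ψ) = r₂ N q φ - r₂ N q ψ := rfl

/-! ### `t₁`, `t₂` -/

theorem t₁_add' (φ ψ : Additive (Gamma0 (N * q)) →+ k) :
    t₁ N q (φ + ψ) = t₁ N q φ + t₁ N q ψ :=
  ((Fermat.Agent.S41.H281.hkStatement.{0}.1 N q k k (AddMonoidHom.id k)).2.1 φ ψ).1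

theorem t₂_add' (φ ψ : Additive (Gamma0 (N * q)) →+ k) :
    t₂ N q (φ + ψ) = t₂ N q φ + t₂ N q ψ :=
  ((Fermat.Agent.S41.H281.hkStatement.{0}.1 N q k k (AddMonoidHom.id k)).2.1 φ ψ).2

theorem t₁_smul' (c : k) (φ : Additive (Gamma0 (N * q)) →+ k) :
    t₁ N q (c • φ) = c • t₁ N q φ := by
  rw [smul_eq_mulLeft_comp, smul_eq_mulLeft_comp]
  exact ((Fermat.Agent.S41.H281.hkStatement.{0}.1 N q k k (AddMonoidHom.mulLeft c)).2.2.2 φ).1

theorem t₂_smul' (c : k) (φ : Additive (Gamma0 (N * q)) →+ k) :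
    t₂ N q (c • φ) = c • t₂ N q φ := by
  rw [smul_eq_mulLeft_comp, smul_eq_mulLeft_comp]
  exact ((Fermat.Agent.S41.H281.hkStatement.{0}.1 N q k k (AddMonoidHom.mulLeft c)).2.2.2 φ).2

theorem t₁_zero' : t₁ N q (0 : Additive (Gamma0 (N * q)) →+ k) = 0 := by
  have h := t₁_smul' (N := N) (q := q) (0 : k) (0 : Additive (Gamma0 (N * q)) →+ k)
  rwa [zero_smul, zero_smul] at h

theorem t₂_zero' : t₂ N q (0 : Additive (Gamma0 (N * q)) →+ k) = 0 := by
  have h := t₂_smul' (N := N) (q := q) (0 : k) (0 : Additive (Gamma0 (N * q)) →+ k)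
  rwa [zero_smul, zero_smul] at h

/-! ### `T_l` -/

section Hecke

variable {l : ℕ} [Fact l.Prime]

theorem hecke_smul' (hl : ¬ l ∣ N) (c : k) (φ : Additive (Gamma0 N) →+ k) :
    heckeTransfer hl (c • φ) = c • heckeTransfer hl φ := by
  rw [smul_eq_mulLeft_comp, smul_eq_mulLeft_comp, heckeTransfer_comp]

theorem hecke_zero' (hl : ¬ l ∣ N) : heckeTransfer hl (0 : Additive (Gamma0 N) →+ k) = 0 := by
  have h := hecke_smul' hl (0 : k) (0 : Additive (Gamma0 N) →+ k)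
  rwa [zero_smul, zero_smul] at h

theorem hecke_neg' (hl : ¬ l ∣ N) (φ : Additive (Gamma0 N) →+ k) :
    heckeTransfer hl (-φ) = -heckeTransfer hl φ := by
  have h := hecke_smul' hl (-1 : k) φ
  rwa [neg_one_smul, neg_one_smul] at h

theorem hecke_sub' (hl : ¬ l ∣ N) (φ ψ : Additive (Gamma0 N) →+ k) :
    heckeTransfer hl (φ - ψ) = heckeTransfer hl φ - heckeTransfer hl ψ := by
  rw [sub_eq_add_neg, heckeTransfer_add, hecke_neg', ← sub_eq_add_neg]

end Hecke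

/-! ### Cuspidal classes and eigenclasses -/

theorem isCuspidal_zero' {n : ℕ} : IsCuspidal (0 : Additive (Gamma0 n) →+ k) :=
  ⟨fun _ _ => rfl, fun _ _ => rfl⟩

theorem isCuspidal_add' {n : ℕ} {φ ψ : Additive (Gamma0 n) →+ k} (hφ : IsCuspidal φ)
    (hψ : IsCuspidal ψ) : IsCuspidal (φ + ψ) := by
  refine ⟨fun γ hγ => ?_, fun γ hγ => ?_⟩
  · rw [AddMonoidHom.add_apply, hφ.1 γ hγ, hψ.1 γ hγ, add_zero]
  · rw [AddMonoidHom.add_apply, hφ.2 γ hγ, hψ.2 γ hγ, add_zero]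

theorem isCuspidal_smul' {n : ℕ} (c : k) {φ : Additive (Gamma0 n) →+ k} (hφ : IsCuspidal φ) :
    IsCuspidal (c • φ) := by
  refine ⟨fun γ hγ => ?_, fun γ hγ => ?_⟩
  · rw [AddMonoidHom.smul_apply, hφ.1 γ hγ, smul_zero]
  · rw [AddMonoidHom.smul_apply, hφ.2 γ hγ, smul_zero]

variable {S : Finset ℕ} {a : ℕ → k}

theorem isEigenclass_zero' : IsEigenclass N S a (0 : Additive (Gamma0 N) →+ k) :=
  ⟨isCuspidal_zero', fun l _ hl _ => by rw [hecke_zero', smul_zero]⟩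

theorem isEigenclass_add' {φ ψ : Additive (Gamma0 N) →+ k} (hφ : IsEigenclass N S a φ)
    (hψ : IsEigenclass N S a ψ) : IsEigenclass N S a (φ + ψ) :=
  ⟨isCuspidal_add' hφ.1 hψ.1, fun l _ hl hlS => by
    rw [heckeTransfer_add, hφ.2 l hl hlS, hψ.2 l hl hlS, smul_add]⟩

theorem isEigenclass_smul' (c : k) {φ : Additive (Gamma0 N) →+ k} (hφ : IsEigenclass N S a φ) :
    IsEigenclass N S a (c • φ) :=
  ⟨isCuspidal_smul' c hφ.1, fun l _ hl hlS => by
    rw [hecke_smul', hφ.2 l hl hlS, smul_comm]⟩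

theorem isEigenclass_neg' {φ : Additive (Gamma0 N) →+ k} (hφ : IsEigenclass N S a φ) :
    IsEigenclass N S a (-φ) := by
  have h := isEigenclass_smul' (-1 : k) hφ
  rwa [neg_one_smul] at h

theorem isEigenclass_sub' {φ ψ : Additive (Gamma0 N) →+ k} (hφ : IsEigenclass N S a φ)
    (hψ : IsEigenclass N S a ψ) : IsEigenclass N S a (φ - ψ) := by
  rw [sub_eq_add_neg]
  exact isEigenclass_add' hφ (isEigenclass_neg' hψ)

/-- `T_q` preserves eigenclasses. -/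
theorem isEigenclass_hecke' [Fact q.Prime] (hq : ¬ q ∣ N) {φ : Additive (Gamma0 N) →+ k}
    (hφ : IsEigenclass N S a φ) : IsEigenclass N S a (heckeTransfer hq φ) :=
  ⟨Fermat.Agent.S41.H281.hkStatement.{0}.2.2.2.1 N q hq k φ hφ.1, fun l _ hl hlS => by
    rw [Fermat.Agent.S41.H281.hkStatement.{0}.2.2.2.2.2.2.2.2 N l q hl hq k φ, hφ.2 l hl hlS,
      hecke_smul']⟩

end Fermat.Agent.S59.H161
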