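import Mathlib
import Fermat.Agent.S41.H161.IK.IK
import Fermat.Agent.S59.NM.Spec

/-!
# S59 / cell NM / leaf IHARA2 (helper161): Ihara's lemma in Eisenstein form under relation (T)

`HasT N q φ` is the relation

    (T)   φ [[a, b], [q² c, d]] = φ [[a, q² b], [c, d]]      (`N ∣ c`),

i.e. `P₁ φ = P₃ φ` on `Γ₀(N q²)` (`hasT_of_P`).  It holds for the first component of a pair in the
kernel of `r₁ + r₂` (`hasT_of_ker`, = `S41.H161.apply_eq_of_sq`), and it is the ONLY consequence of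
`r₁ φ₁ + r₂ φ₂ = 0` used by the block IK of row S41.  `ikT` is `S41.H161.ik` with hypothesis (T).
-/

set_option autoImplicit false

namespace Fermat.Agent.S59.H161

open CongruenceSubgroup Matrix.SpecialLinearGroup
open Fermat.Agent.S29.H642 Fermat.Agent.S41.Spec Fermat.Agent.S41.H281 Fermat.Agent.S41.H161
open Fermat.Agent.S59.NM
open scoped MatrixGroups

variable {N q p : ℕ} {A : Type*} [AddCommGroup A]

/-- Relation **(T)** for a character `φ` of `Γ₀(N)`. -/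
def HasT (N q : ℕ) (φ : Additive (Gamma0 N) →+ A) : Prop :=
  ∀ (a b c d : ℤ) (hc : (N : ℤ) ∣ c) (hdet : a * d - b * (q * (q * c)) = 1),
    φ (Additive.ofMul (mk0 N a b (q * (q * c)) d hdet
        (Dvd.dvd.mul_left (Dvd.dvd.mul_left hc _) _))) =
      φ (Additive.ofMul (mk0 N a (q * (q * b)) c d (by linear_combination hdet) hc))

theorem hasT_of_ker (hq : q.Prime) (hqN : ¬ q ∣ N) {φ₁ φ₂ : Additive (Gamma0 N) →+ A}
    (hker : r₁ N q φ₁ + r₂ N q φ₂ = 0) : HasT N q φ₁ :=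
  fun a b c d hc hdet => apply_eq_of_sq hq hqN hker a b c d hc hdet

/-- `P₁ φ = P₃ φ` is relation (T). -/
theorem hasT_of_P (hq : q.Prime) {φ : Additive (Gamma0 N) →+ A}
    (hP : P₁ N q φ = P₃ N q φ) : HasT N q φ := by
  intro a b c d hc hdet
  have hq0 : q ≠ 0 := hq.ne_zero
  have hc' : ((N * q : ℕ) : ℤ) ∣ q * c := by
    obtain ⟨k, rfl⟩ := hc
    exact ⟨k, by push_cast; ring⟩
  have h := DFunLike.congr_fun hP
    (Additive.ofMul (mkq (N * q) q a b (q * c) d hdet hc'))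
  simp only [P₁, P₃, r₁, r₂, AddMonoidHom.coe_comp, Function.comp_apply,
    MonoidHom.toAdditive_apply_apply, toMul_ofMul] at h
  rw [incl_mkq, conjDelta_mkq hq0] at h
  have e1 : incl N q (mk0 (N * q) a b (q * (q * c)) d hdet (Dvd.dvd.mul_left hc' _)) =
      mk0 N a b (q * (q * c)) d hdet (Dvd.dvd.mul_left (Dvd.dvd.mul_left hc _) _) :=
    gamma0_ext rfl rfl rfl rfl
  have e2 : mk0 (N * q) a (q * b) (q * c) d (by linear_combination hdet) hc' =
      mkq N q a (q * b) c d (by linear_combination hdet) hc :=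
    gamma0_ext rfl rfl rfl rfl
  rw [e1, e2, conjDelta_mkq hq0] at h
  exact h

/-- **US** under (T), one step. -/
theorem unit_symT (hq : q.Prime) (hqN : ¬ q ∣ N) {φ₁ : Additive (Gamma0 N) →+ A}
    (hT' : HasT N q φ₁) (hU : φ₁ (Additive.ofMul (upU N)) = 0) :
    ∃ κ : A, ∀ γ γ' : Gamma0 N, (γ' : SL(2, ℤ)) 1 0 = (γ : SL(2, ℤ)) 1 0 →
      ¬ (q : ℤ) ∣ (γ : SL(2, ℤ)) 1 0 →
      (γ' : SL(2, ℤ)) 1 1 ≡ (q : ℤ) ^ 2 * (γ : SL(2, ℤ)) 1 1 [ZMOD (γ : SL(2, ℤ)) 1 0] →
      φ₁ (Additive.ofMul γ') = φ₁ (Additive.ofMul γ) + κ := by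
  -- Bezout for q² and N
  have hcop : IsCoprime ((q : ℤ) * q) (N : ℤ) := by
    have h1 : IsCoprime (q : ℤ) (N : ℤ) := by
      rw [Int.isCoprime_iff_gcd_eq_one, Int.gcd_natCast_natCast]
      exact (Nat.Prime.coprime_iff_not_dvd hq).mpr hqN
    exact h1.mul_left h1
  obtain ⟨u, v, huv⟩ := hcop
  -- huv : u * (q * q) + v * N = 1
  let w1 : Gamma0 N := mk0 N (q * q) (-v) N u (by linear_combination huv) (dvd_refl _)
  let w1i : Gamma0 N := mk0 N u v (-N) (q * q) (by linear_combination huv)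
    (Dvd.dvd.neg_right (dvd_refl _))
  let w1h : Gamma0 N := mk0 N 1 (-v) N (q * q * u) (by linear_combination huv) (dvd_refl _)
  have hw : w1i * w1 = 1 := by
    apply gamma0_ext <;>
      simp only [w1, w1i, mul_00, mul_01, mul_10, mul_11, mk0_00, mk0_01, mk0_10, mk0_11]
    · show _ = (1 : ℤ); linear_combination huv
    · show _ = (0 : ℤ); ring
    · show _ = (0 : ℤ); ring
    · show _ = (1 : ℤ); linear_combination huv
  have hwφ : φ₁ (Additive.ofMul w1i) = -φ₁ (Additive.ofMul w1) := by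
    have : φ₁ (Additive.ofMul w1i) + φ₁ (Additive.ofMul w1) = 0 := by
      rw [← map_add, ← ofMul_mul, hw]; simp
    exact eq_neg_of_add_eq_zero_left this
  refine ⟨φ₁ (Additive.ofMul w1h) - φ₁ (Additive.ofMul w1), ?_⟩
  intro γ γ' h10 hqc h11
  obtain ⟨a, b, c, d, hdet, hc, rfl⟩ := exists_mk0 γ
  simp only [mk0_10, mk0_11] at h10 hqc h11
  -- make `a ≡ 0 mod q²`
  have hcq : IsCoprime c ((q : ℤ) * q) := by
    have h1 := isCoprime_of_prime_not_dvd hq hqc
    exact h1.mul_right h1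
  obtain ⟨m, n, hmn⟩ := hcq
  -- hmn : m * c + n * (q * q) = 1
  -- s = - a m,  a + s c = q² (a n) =: q² t
  set s : ℤ := -(a * m) with hs
  set t : ℤ := a * n with ht
  have hat : a + s * c = q * (q * t) := by
    rw [hs, ht]; linear_combination (-a) * hmn
  set b₀ : ℤ := b + s * d with hb₀
  have hdet₀ : q * (q * t) * d - b₀ * c = 1 := by
    rw [← hat, hb₀]; linear_combination hdet
  -- γ₀ = upZ s * γ
  have hγ₀ : upZ N s * mk0 N a b c d hdet hc = mk0 N (q * (q * t)) b₀ c d hdet₀ hc := by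
    apply gamma0_ext <;>
      simp only [upZ, mul_00, mul_01, mul_10, mul_11, mk0_00, mk0_01, mk0_10, mk0_11]
    · rw [← hat]; ring
    · rw [hb₀]; ring
    · ring
    · ring
  have hφ₀ : φ₁ (Additive.ofMul (mk0 N (q * (q * t)) b₀ c d hdet₀ hc)) =
      φ₁ (Additive.ofMul (mk0 N a b c d hdet hc)) := by
    rw [← hγ₀, ofMul_mul, map_add, apply_upZ φ₁ hU, zero_add]
  -- γ̂
  have hdeth : t * (q * (q * d)) - b₀ * c = 1 := by linear_combination hdet₀
  set γh : Gamma0 N := mk0 N t b₀ c (q * (q * d)) hdeth hc with hγh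
  -- γ₁ = w1i * γ₀, with lower-left entry q (q (-N t + c))
  have hdet₁ : (u * (q * (q * t)) + v * c) * (-N * b₀ + q * q * d) -
      (u * b₀ + v * d) * (q * (q * (-N * t + c))) = 1 := by
    have h1 := det_eq (w1i * mk0 N (q * (q * t)) b₀ c d hdet₀ hc)
    simp only [w1i, mul_00, mul_01, mul_10, mul_11, mk0_00, mk0_01, mk0_10, mk0_11] at h1
    linear_combination h1
  have hc₁ : (N : ℤ) ∣ -N * t + c := by
    exact dvd_add (Dvd.intro _ (by ring : (N : ℤ) * (-t) = -N * t)) hc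
  have hγ₁ : w1i * mk0 N (q * (q * t)) b₀ c d hdet₀ hc =
      mk0 N (u * (q * (q * t)) + v * c) (u * b₀ + v * d) (q * (q * (-N * t + c)))
        (-N * b₀ + q * q * d) hdet₁ (Dvd.dvd.mul_left (Dvd.dvd.mul_left hc₁ _) _) := by
    apply gamma0_ext <;>
      simp only [w1i, mul_00, mul_01, mul_10, mul_11, mk0_00, mk0_01, mk0_10, mk0_11] <;> ring_nf
  have hT := hT' (u * (q * (q * t)) + v * c) (u * b₀ + v * d)
    (-N * t + c) (-N * b₀ + q * q * d) hc₁ hdet₁
  -- γ̂ = w1h * γ̃₁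
  have hγh' : γh = w1h * mk0 N (u * (q * (q * t)) + v * c) (q * (q * (u * b₀ + v * d)))
      (-N * t + c) (-N * b₀ + q * q * d) (by linear_combination hdet₁) hc₁ := by
    apply gamma0_ext <;>
      simp only [γh, w1h, mul_00, mul_01, mul_10, mul_11, mk0_00, mk0_01, mk0_10, mk0_11]
    · linear_combination (-t) * huv
    · linear_combination (-b₀) * huv
    · linear_combination (-c) * huv
    · linear_combination (-(q * q * d)) * huv
  have hφh : φ₁ (Additive.ofMul γh) = φ₁ (Additive.ofMul (mk0 N a b c d hdet hc)) +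
      (φ₁ (Additive.ofMul w1h) - φ₁ (Additive.ofMul w1)) := by
    rw [hγh', ofMul_mul, map_add, ← hT, ← hγ₁, ofMul_mul, map_add, hwφ, hφ₀]
    abel
  rw [← hφh]
  apply apply_eq_of_row φ₁ hU
  · simp only [γh, mk0_10]; exact h10
  · simp only [γh, mk0_10, mk0_11]
    have : (q : ℤ) ^ 2 * d = q * (q * d) := by ring
    rw [← this]; exact h11

/-- **US** under (T), iterated. -/
theorem unit_sym_powT (hq : q.Prime) (hqN : ¬ q ∣ N) {φ₁ : Additive (Gamma0 N) →+ A}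
    (hT' : HasT N q φ₁) (hU : φ₁ (Additive.ofMul (upU N)) = 0) :
    ∃ κ : A, ∀ (k : ℕ) (γ γ' : Gamma0 N), (γ' : SL(2, ℤ)) 1 0 = (γ : SL(2, ℤ)) 1 0 →
      ¬ (q : ℤ) ∣ (γ : SL(2, ℤ)) 1 0 →
      (γ' : SL(2, ℤ)) 1 1 ≡ (q : ℤ) ^ (2 * k) * (γ : SL(2, ℤ)) 1 1 [ZMOD (γ : SL(2, ℤ)) 1 0] →
      φ₁ (Additive.ofMul γ') = φ₁ (Additive.ofMul γ) + k • κ := by
  obtain ⟨κ, hκ⟩ := unit_symT hq hqN hT' hU
  refine ⟨κ, ?_⟩
  intro k
  induction k with
  | zero =>
    intro γ γ' h10 _ h11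
    rw [zero_smul, add_zero]
    exact apply_eq_of_row φ₁ hU γ γ' h10 (by simpa using h11)
  | succ k ih =>
    intro γ γ' h10 hqc h11
    -- intermediate element with bottom row (c, q^(2k) d)
    have hcop : IsCoprime ((γ : SL(2, ℤ)) 1 0) ((q : ℤ) ^ (2 * k) * (γ : SL(2, ℤ)) 1 1) :=
      IsCoprime.mul_right ((isCoprime_of_prime_not_dvd hq hqc).pow_right) (isCoprime_row γ)
    obtain ⟨γ'', h10'', h11''⟩ := exists_row hcop (dvd_10 γ)
    have e1 := ih γ γ'' h10'' hqc (by rw [h11''])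
    have e2 := hκ γ'' γ' (by rw [h10, h10'']) (by rw [h10'']; exact hqc)
      (by
        rw [h10'', h11'']
        have : (q : ℤ) ^ (2 * (k + 1)) * (γ : SL(2, ℤ)) 1 1 =
            (q : ℤ) ^ 2 * ((q : ℤ) ^ (2 * k) * (γ : SL(2, ℤ)) 1 1) := by ring
        rw [← this]; exact h11)
    rw [e2, e1, succ_nsmul, add_assoc]

/-- The main computation of IK under (T). -/
theorem ik_applyT (hq : q.Prime) (hqN : ¬ q ∣ N) (hp : p.Prime) (hp2 : p ≠ 2)
    (hA : ∀ a : A, p • a = 0) {φ₁ : Additive (Gamma0 N) →+ A}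
    (hT : HasT N q φ₁) (hU : φ₁ (Additive.ofMul (upU N)) = 0)
    (γ : Gamma0 N) (hqc : ¬ (q : ℤ) ∣ (γ : SL(2, ℤ)) 1 0)
    (l : ℕ) [Fact l.Prime] (hl : ¬ l ∣ N) (hlq : l ≠ q)
    (hl1 : (l : ℤ) ≡ 1 [ZMOD (γ : SL(2, ℤ)) 1 0])
    (hk : ∃ k : ℕ, (q : ℤ) ^ (2 * k) ≡ 1 [ZMOD (γ : SL(2, ℤ)) 1 0] ∧
      p ∣ orderOf ((q : ZMod l) ^ (2 * k))) :
    heckeTransfer hl φ₁ (Additive.ofMul γ) = (2 : ℕ) • φ₁ (Additive.ofMul γ) := by
  classical
  have hlp : l.Prime := Fact.out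
  have hl0 : (l : ℤ) ≠ 0 := l_ne_zero_int
  set c : ℤ := (γ : SL(2, ℤ)) 1 0 with hc
  set d : ℤ := (γ : SL(2, ℤ)) 1 1 with hd
  have hcd : IsCoprime c d := isCoprime_row γ
  -- `l ∤ c`
  have hlc : ¬ (l : ℤ) ∣ c := by
    intro h
    have h1 : c ∣ 1 - (l : ℤ) := Int.modEq_iff_dvd.mp hl1
    have h2 : (l : ℤ) ∣ 1 := by
      have := dvd_add (dvd_trans h h1) (dvd_refl (l : ℤ))
      simpa using this
    have h3 : (l : ℤ) = 1 ∨ (l : ℤ) = -1 := Int.isUnit_iff.mp (isUnit_of_dvd_one h2)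
    rcases h3 with h3 | h3
    · exact hlp.one_lt.ne' (by exact_mod_cast h3)
    · have : (0 : ℤ) ≤ l := Int.natCast_nonneg _
      omega
  have hcl : ((c : ℤ) : ZMod l) ≠ 0 := by
    rwa [Ne, ZMod.intCast_zmod_eq_zero_iff_dvd]
  have hcoplc : (l : ℤ).natAbs.Coprime c.natAbs := by
    rw [Int.natAbs_natCast]
    exact (Nat.Prime.coprime_iff_not_dvd hlp).mpr (fun h => hlc (Int.natCast_dvd.mpr h))
  obtain ⟨κ, hκ⟩ := unit_sym_powT hq hqN hT hU
  obtain ⟨k, hk1, hk2⟩ := hk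
  -- the unit `q mod l`
  have hql : ((q : ℕ) : ZMod l) ≠ 0 := by
    rw [Ne, ZMod.natCast_eq_zero_iff]
    intro h
    exact hlq ((Nat.prime_dvd_prime_iff_eq hlp hq).mp h)
  let qu : (ZMod l)ˣ := Units.mk0 (q : ZMod l) hql
  set n := orderOf (qu ^ (2 * k)) with hn
  have hn' : orderOf ((q : ZMod l) ^ (2 * k)) = n := by
    rw [hn, ← orderOf_units]
    simp [qu]
  have hpn : p ∣ n := hn' ▸ hk2
  have hn0 : 0 < n := orderOf_pos _
  set K := k * (n / p) with hK
  let v : (ZMod l)ˣ := (qu ^ (2 * k)) ^ (n / p)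
  have hv : orderOf v = p := by
    rw [orderOf_pow_of_dvd (Nat.div_pos (Nat.le_of_dvd hn0 hpn) hp.pos).ne'
      (Nat.div_dvd_of_dvd hpn)]
    exact Nat.div_div_self hpn hn0.ne'
  have hvq : ((v : (ZMod l)ˣ) : ZMod l) = (q : ZMod l) ^ (2 * K) := by
    simp only [v, qu, hK, Units.val_pow_eq_pow_val, Units.val_mk0]
    rw [← pow_mul, mul_assoc]
  have hqK : (q : ℤ) ^ (2 * K) ≡ 1 [ZMOD c] := by
    have := hk1.pow (n / p)
    rw [one_pow, ← pow_mul] at this
    rwa [hK, ← mul_assoc]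
  have hqlc : ¬ (q : ℤ) ∣ (l : ℤ) * c := by
    intro h
    rcases (Nat.prime_iff_prime_int.mp hq).dvd_mul.mp h with h | h
    · have : q ∣ l := by exact_mod_cast h
      exact hlq ((Nat.prime_dvd_prime_iff_eq hq hlp).mp this).symm
    · exact hqc h
  -- notation
  set π := hPerm l (γ : SL(2, ℤ)) with hπ
  set f : OnePoint (ZMod l) → A := fun x => φ₁ (Additive.ofMul (hElt hl γ x)) with hf
  rw [heckeTransfer_apply]
  show ∑ x, f x = _
  have hπinf : π OnePoint.infty ≠ OnePoint.infty := hPerm_infty_ne_infty hl γ hlc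
  set xinf := π.symm OnePoint.infty with hxinfdef
  have hxinf : xinf ≠ OnePoint.infty := by
    intro h
    apply hπinf
    have h1 : π xinf = OnePoint.infty := by rw [hxinfdef, Equiv.apply_symm_apply]
    rw [h] at h1
    exact h1
  -- the two special terms
  have hfinf : f OnePoint.infty = φ₁ (Additive.ofMul γ) := by
    obtain ⟨j', hj'⟩ := OnePoint.ne_infty_iff_exists.mp hπinf
    obtain ⟨h10, h11⟩ := hElt_row_infty_coe hl γ j' hj'.symm
    apply apply_eq_of_row φ₁ hU _ _ h10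
    rw [← hc, ← hd]
    rw [← hc, ← hd] at h11
    have e1 : ((hElt hl γ OnePoint.infty : Gamma0 N) : SL(2, ℤ)) 1 1 * l ≡ d [ZMOD c] := by
      rw [h11, Int.modEq_iff_dvd]
      exact ⟨(j'.val : ℤ), by ring⟩
    have e2 : ((hElt hl γ OnePoint.infty : Gamma0 N) : SL(2, ℤ)) 1 1 * l ≡
        ((hElt hl γ OnePoint.infty : Gamma0 N) : SL(2, ℤ)) 1 1 * 1 [ZMOD c] :=
      Int.ModEq.mul_left _ hl1
    rw [mul_one] at e2
    exact e2.symm.trans e1
  have hfxinf : f xinf = φ₁ (Additive.ofMul γ) := by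
    obtain ⟨j, hj⟩ := OnePoint.ne_infty_iff_exists.mp hxinf
    have hπj : π (j : OnePoint (ZMod l)) = OnePoint.infty := by
      rw [hj, hxinfdef, Equiv.apply_symm_apply]
    obtain ⟨h10, h11⟩ := hElt_row_coe_infty hl γ j hπj
    show φ₁ (Additive.ofMul (hElt hl γ xinf)) = _
    rw [← hj]
    apply apply_eq_of_row φ₁ hU _ _ h10
    rw [← hc, ← hd, h11]
    have := Int.ModEq.mul_right d hl1
    rwa [one_mul] at this
  -- the generic terms
  let jfun : (ZMod l)ˣ → ZMod l := fun e => (((d : ℤ) : ZMod l) - e) * ((c : ℤ) : ZMod l)⁻¹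
  let xfun : (ZMod l)ˣ → OnePoint (ZMod l) := fun e => π.symm ((jfun e : ZMod l) : OnePoint (ZMod l))
  have hπx : ∀ e, π (xfun e) = ((jfun e : ZMod l) : OnePoint (ZMod l)) := fun e => by
    simp only [xfun, Equiv.apply_symm_apply]
  have hcast : ∀ e : (ZMod l)ˣ, (((d - c * ((jfun e).val : ℤ) : ℤ)) : ZMod l) = e := by
    intro e
    push_cast
    rw [ZMod.natCast_zmod_val]
    simp only [jfun]
    field_simp
    ring
  have hxne : ∀ e, xfun e ≠ OnePoint.infty := by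
    intro e h
    have h1 : π OnePoint.infty = ((jfun e : ZMod l) : OnePoint (ZMod l)) := by
      rw [← h]; exact hπx e
    obtain ⟨_, h11⟩ := hElt_row_infty_coe hl γ (jfun e) h1
    rw [← hc, ← hd] at h11
    have h2 : ((((hElt hl γ OnePoint.infty : Gamma0 N) : SL(2, ℤ)) 1 1 * (l : ℤ) : ℤ) : ZMod l) =
        (((d - c * ((jfun e).val : ℤ) : ℤ)) : ZMod l) := congrArg Int.cast h11
    rw [hcast e] at h2
    push_cast at h2
    rw [ZMod.natCast_self, mul_zero] at h2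
    exact e.ne_zero h2.symm
  have hrow : ∀ e, ((hElt hl γ (xfun e) : Gamma0 N) : SL(2, ℤ)) 1 0 = l * c ∧
      ((hElt hl γ (xfun e) : Gamma0 N) : SL(2, ℤ)) 1 1 = d - c * ((jfun e).val : ℤ) := by
    intro e
    obtain ⟨j, hj⟩ := OnePoint.ne_infty_iff_exists.mp (hxne e)
    have := hElt_row_coe_coe hl γ j (jfun e) (by rw [hj]; exact hπx e)
    rw [hj] at this
    exact this
  have hgen : ∑ x ∈ Finset.univ.filter (fun x => x ≠ OnePoint.infty ∧ π x ≠ OnePoint.infty), f x =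
      ∑ e : (ZMod l)ˣ, f (xfun e) := by
    symm
    refine Finset.sum_bij (fun e _ => xfun e) ?_ ?_ ?_ ?_
    · intro e _
      simp only [Finset.mem_filter, Finset.mem_univ, true_and]
      exact ⟨hxne e, by rw [hπx]; exact OnePoint.coe_ne_infty _⟩
    · intro e₁ _ e₂ _ h
      have h1 : ((jfun e₁ : ZMod l) : OnePoint (ZMod l)) = ((jfun e₂ : ZMod l) : OnePoint (ZMod l)) := by
        rw [← hπx, ← hπx, h]
      have h2 : jfun e₁ = jfun e₂ := OnePoint.coe_injective h1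
      have h3 : (((d : ℤ) : ZMod l) - e₁) = (((d : ℤ) : ZMod l) - e₂) :=
        mul_right_cancel₀ (inv_ne_zero hcl) h2
      exact Units.ext (by linear_combination -h3)
    · intro x hx
      simp only [Finset.mem_filter, Finset.mem_univ, true_and] at hx
      obtain ⟨j, hj⟩ := OnePoint.ne_infty_iff_exists.mp hx.1
      obtain ⟨j', hj'⟩ := OnePoint.ne_infty_iff_exists.mp hx.2
      obtain ⟨h10, h11⟩ := hElt_row_coe_coe hl γ j j' (by rw [hj, hj'])
      rw [← hc] at h10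
      rw [← hc, ← hd] at h11
      -- e = d - c j' is nonzero mod l
      have hcop := isCoprime_row (hElt hl γ (j : OnePoint (ZMod l)))
      rw [h10, h11] at hcop
      have hne : (((d : ℤ) : ZMod l) - ((c : ℤ) : ZMod l) * j') ≠ 0 := by
        intro h0
        have h1 : (((d - c * (j'.val : ℤ) : ℤ)) : ZMod l) = 0 := by
          push_cast
          rw [ZMod.natCast_zmod_val]
          exact h0
        rw [ZMod.intCast_zmod_eq_zero_iff_dvd] at h1
        have h2 : IsCoprime (l : ℤ) (d - c * (j'.val : ℤ)) := hcop.of_mul_left_left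
        have h3 : IsUnit (l : ℤ) := h2.isUnit_of_dvd' (dvd_refl _) h1
        have h4 : (l : ℤ) = 1 ∨ (l : ℤ) = -1 := Int.isUnit_iff.mp h3
        rcases h4 with h4 | h4
        · exact hlp.one_lt.ne' (by exact_mod_cast h4)
        · have : (0 : ℤ) ≤ l := Int.natCast_nonneg _
          omega
      refine ⟨Units.mk0 _ hne, Finset.mem_univ _, ?_⟩
      have hj2 : jfun (Units.mk0 _ hne) = j' := by
        simp only [jfun, Units.val_mk0]
        field_simp
        ring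
      show π.symm ((jfun (Units.mk0 _ hne) : ZMod l) : OnePoint (ZMod l)) = x
      rw [hj2, hj', Equiv.symm_apply_apply]
    · intro e _
      rfl
  have hshift : ∀ e : (ZMod l)ˣ, f (xfun (v * e)) = f (xfun e) + K • κ := by
    intro e
    obtain ⟨a10, a11⟩ := hrow e
    obtain ⟨b10, b11⟩ := hrow (v * e)
    apply hκ K _ _ (by rw [a10, b10]) (by rw [a10]; exact hqlc)
    rw [a10, a11, b11]
    apply (Int.modEq_and_modEq_iff_modEq_mul hcoplc).mp
    constructor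
    · rw [← ZMod.intCast_eq_intCast_iff]
      rw [hcast (v * e)]
      push_cast
      have := hcast e
      push_cast at this
      rw [this, hvq]
    · have e1 : d - c * ((jfun (v * e)).val : ℤ) ≡ d [ZMOD c] := by
        rw [Int.modEq_iff_dvd]
        exact ⟨((jfun (v * e)).val : ℤ), by ring⟩
      have e2 : d - c * ((jfun e).val : ℤ) ≡ d [ZMOD c] := by
        rw [Int.modEq_iff_dvd]
        exact ⟨((jfun e).val : ℤ), by ring⟩
      have e3 := Int.ModEq.mul hqK e2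
      rw [one_mul] at e3
      exact e1.trans e3.symm
  have hzero : ∑ e : (ZMod l)ˣ, f (xfun e) = 0 :=
    sum_eq_zero_of_shift hp hp2 hA v hv (fun e => f (xfun e)) (K • κ) hshift
  -- assemble
  have hsplit := Finset.sum_filter_add_sum_filter_not Finset.univ
    (fun x => x ≠ OnePoint.infty ∧ π x ≠ OnePoint.infty) f
  have hnot : Finset.univ.filter (fun x => ¬ (x ≠ OnePoint.infty ∧ π x ≠ OnePoint.infty)) =
      {OnePoint.infty, xinf} := by
    ext x
    simp only [Finset.mem_filter, Finset.mem_univ, true_and, Finset.mem_insert,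
      Finset.mem_singleton, not_and_or, not_not]
    constructor
    · rintro (h | h)
      · exact Or.inl h
      · exact Or.inr (by rw [hxinfdef, ← h, Equiv.symm_apply_apply])
    · rintro (h | h)
      · exact Or.inl h
      · exact Or.inr (by rw [h, hxinfdef, Equiv.apply_symm_apply])
  rw [← hsplit, hnot, Finset.sum_pair (Ne.symm hxinf), hgen, hzero, hfinf, hfxinf, zero_add, two_nsmul]


/-- **IK under (T)**: `S41.H161.IKStatement` with the hypothesis `r₁ φ₁ + r₂ φ₂ = 0` replaced by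
relation (T) for `φ`. -/
theorem ikT (hq : q.Prime) (hqN : ¬ q ∣ N) (hp : p.Prime) (hp2 : p ≠ 2)
    (hA : ∀ a : A, p • a = 0) {φ : Additive (Gamma0 N) →+ A} (hT : HasT N q φ)
    (hU : φ (Additive.ofMul (upU N)) = 0) (hne : φ ≠ 0) :
    ∃ γ₀ : Gamma0 N, φ (Additive.ofMul γ₀) ≠ 0 ∧ (γ₀ : SL(2, ℤ)) 1 0 ≠ 0 ∧
      ¬ (q : ℤ) ∣ (γ₀ : SL(2, ℤ)) 1 0 ∧
      ∀ (l : ℕ) [Fact l.Prime] (hl : ¬ l ∣ N), l ≠ q →
        (l : ℤ) ≡ 1 [ZMOD (γ₀ : SL(2, ℤ)) 1 0] →
        (∃ k : ℕ, (q : ℤ) ^ (2 * k) ≡ 1 [ZMOD (γ₀ : SL(2, ℤ)) 1 0] ∧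
          p ∣ orderOf ((q : ZMod l) ^ (2 * k))) →
        heckeTransfer hl φ (Additive.ofMul γ₀) = (2 : ℕ) • φ (Additive.ofMul γ₀) := by
  obtain ⟨γ₀, h1, h2⟩ := exists_ne_zero_not_dvd hq hqN φ hne
  refine ⟨γ₀, h1, ?_, h2, ?_⟩
  · intro h0
    apply h2
    rw [h0]
    exact dvd_zero _
  · intro l _ hl hlq hl1 hk
    exact ik_applyT hq hqN hp hp2 hA hT hU γ₀ h2 l hl hlq hl1 hk

end Fermat.Agent.S59.H161
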