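import Mathlib
import Fermat.Agent.S59.H161.Ihara2.T

/-!
# S59 / cell NM / leaf IHARA2 (helper161): stage 1 in eigen form, coefficients in a field `k`

`NEPrimeLocal p S a q` is the conclusion of NE' for the system `a` (the body of helper62's
`H62.NEPrimeKStatement`): for every `m ≥ 1` and finite `S'` there is a prime `l ∉ S ∪ S'`,
`l ≡ 1 mod m`, `l ≡ 1 mod p`, `a l ≠ l + 1`, `q` not a `p`-th power modulo `l` (Euler form).

* `eq_zero_of_hasT`  : an `a`-eigenclass with relation (T) vanishes                    (S1T);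
* `eq_zero_of_PP`    : the same with `P₁ φ = P₃ φ`;
* `eq_zero_of_ker`   : `r₁ φ₁ + r₂ φ₂ = 0`, `φ₁` an eigenclass, `φ₂` ARBITRARY ⇒ `φ₁ = 0` (S1);
* `eq_zero_of_ker'`  : `r₁ φ₁ + r₂ φ₂ = 0`, `φ₂` an eigenclass, `φ₁` ARBITRARY ⇒ `φ₂ = 0`.
-/

set_option autoImplicit false

namespace Fermat.Agent.S59.H161

open CongruenceSubgroup Matrix.SpecialLinearGroup
open Fermat.Agent.S29.H642 Fermat.Agent.S41.Spec Fermat.Agent.S41.H281 Fermat.Agent.S41.H161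
open Fermat.Agent.S59.NM
open scoped MatrixGroups

/-- The conclusion of NE' for the system of eigenvalues `a` (Euler form of the Kummer condition). -/
def NEPrimeLocal (p : ℕ) {k : Type} [Field k] (S : Finset ℕ) (a : ℕ → k) (q : ℕ) : Prop :=
  ∀ (m : ℕ), 0 < m → ∀ S' : Finset ℕ, ∃ l : ℕ, l.Prime ∧ l ∉ S ∧ l ∉ S' ∧ l ≡ 1 [MOD m] ∧
    l ≡ 1 [MOD p] ∧ a l ≠ (l : k) + 1 ∧ ¬ (q ^ ((l - 1) / p) ≡ 1 [MOD l])

/-- Euler's criterion, the easy direction: a `p`-th power `q ≢ 0` modulo `l ≡ 1 mod p` has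
`q^((l-1)/p) ≡ 1`. -/
theorem euler_of_pow {l p q : ℕ} (hl : l.Prime) (hlp : l ≡ 1 [MOD p]) (hlq : ¬ l ∣ q)
    (h : ∃ x : ZMod l, x ^ p = (q : ZMod l)) : q ^ ((l - 1) / p) ≡ 1 [MOD l] := by
  haveI : Fact l.Prime := ⟨hl⟩
  obtain ⟨x, hx⟩ := h
  have hq0 : (q : ZMod l) ≠ 0 := by
    rwa [Ne, ZMod.natCast_eq_zero_iff]
  have hx0 : x ≠ 0 := by
    rintro rfl
    rcases Nat.eq_zero_or_pos p with hp0 | hp0
    · subst hp0
      -- `l ≡ 1 mod 0` means `l = 1`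
      have : l = 1 := by simpa [Nat.ModEq] using hlp
      exact hl.one_lt.ne' this
    · rw [zero_pow hp0.ne'] at hx
      exact hq0 hx.symm
  have hdiv : p ∣ l - 1 := (Nat.modEq_iff_dvd' hl.one_lt.le).mp hlp.symm
  rw [← ZMod.natCast_eq_natCast_iff]
  push_cast
  rw [← hx, ← pow_mul, Nat.mul_div_cancel' hdiv]
  exact ZMod.pow_card_sub_one_eq_one hx0

/-- A cuspidal class vanishes on `U = [[1, 1], [0, 1]]`. -/
theorem upU_eq_zero_of_isCuspidal {N : ℕ} {A : Type*} [AddCommGroup A]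
    {φ : Additive (Gamma0 N) →+ A} (hφ : IsCuspidal φ) : φ (Additive.ofMul (upU N)) = 0 := by
  apply hφ.1
  simp [upU, Matrix.trace_fin_two_of]

variable {p : ℕ} {k : Type} [Field k] [CharP k p] {N q : ℕ}

/-- **(S1T)** an eigenclass with relation (T) for a system `a` with NE' vanishes. -/
theorem eq_zero_of_hasT (hp : p.Prime) (hp2 : p ≠ 2) (hN : N ≠ 0) (hq : q.Prime) (hqN : ¬ q ∣ N)
    {S : Finset ℕ} {a : ℕ → k} (hNE : NEPrimeLocal p S a q)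
    {φ : Additive (Gamma0 N) →+ k} (hφ : IsEigenclass N (insert q S) a φ) (hT : HasT N q φ) :
    φ = 0 := by
  by_contra hne
  have hA : ∀ x : k, p • x = 0 := by
    intro x
    rw [nsmul_eq_mul, CharP.cast_eq_zero, zero_mul]
  obtain ⟨γ₀, hγ₀, hc0, hqc, H⟩ := ikT hq hqN hp hp2 hA hT (upU_eq_zero_of_isCuspidal hφ.1) hne
  -- the modulus
  set c : ℤ := (γ₀ : SL(2, ℤ)) 1 0 with hc
  have hcn : 0 < c.natAbs := Int.natAbs_pos.mpr hc0
  set t : ℕ := Nat.totient c.natAbs with ht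
  have hcop : Nat.Coprime q c.natAbs := by
    rw [Nat.Prime.coprime_iff_not_dvd hq]
    intro h
    exact hqc (Int.natCast_dvd.mpr h)
  have hqk : (q : ℤ) ^ (2 * t) ≡ 1 [ZMOD c] := by
    have h1 : q ^ t ≡ 1 [MOD c.natAbs] := Nat.ModEq.pow_totient hcop
    have h2 : (q ^ t) ^ 2 ≡ 1 ^ 2 [MOD c.natAbs] := h1.pow 2
    have h3 : (((q ^ t) ^ 2 : ℕ) : ℤ) ≡ ((1 ^ 2 : ℕ) : ℤ) [ZMOD (c.natAbs : ℤ)] :=
      Int.natCast_modEq_iff.mpr h2
    have h4 : (c.natAbs : ℤ) ∣ ((1 ^ 2 : ℕ) : ℤ) - (((q ^ t) ^ 2 : ℕ) : ℤ) :=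
      Int.ModEq.dvd h3
    rw [Int.natAbs_dvd] at h4
    rw [Int.modEq_iff_dvd]
    have e : (1 : ℤ) - (q : ℤ) ^ (2 * t) = ((1 ^ 2 : ℕ) : ℤ) - (((q ^ t) ^ 2 : ℕ) : ℤ) := by
      push_cast
      ring
    rw [e]
    exact h4
  have ht0 : 0 < t := Nat.totient_pos.mpr hcn
  set M : ℕ := 2 * t with hM
  have hM0 : M ≠ 0 := by omega
  set e : ℕ := padicValNat p M with he
  haveI : Fact p.Prime := ⟨hp⟩
  have hMe : ¬ p ^ (e + 1) ∣ M := pow_succ_padicValNat_not_dvd hM0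
  set m : ℕ := c.natAbs * p ^ (e + 1) with hm
  have hm0 : 0 < m := Nat.mul_pos hcn (pow_pos hp.pos _)
  obtain ⟨l, hl, hlS, hlS', hlm, hlp1, hnE, hpow⟩ := hNE m hm0 (insert q N.primeFactors)
  haveI hlF : Fact l.Prime := ⟨hl⟩
  have hlq : l ≠ q := by
    rintro rfl
    exact hlS' (Finset.mem_insert_self _ _)
  have hlN : ¬ l ∣ N := by
    intro h
    exact hlS' (Finset.mem_insert_of_mem (Nat.mem_primeFactors.mpr ⟨hl, h, hN⟩))
  have hlqS : l ∉ insert q S := by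
    intro h
    rcases Finset.mem_insert.mp h with h | h
    · exact hlq h
    · exact hlS h
  have hlc : (l : ℤ) ≡ 1 [ZMOD c] := by
    have h1 : l ≡ 1 [MOD c.natAbs] := hlm.of_dvd (Dvd.intro _ rfl)
    have h3 : ((l : ℕ) : ℤ) ≡ ((1 : ℕ) : ℤ) [ZMOD (c.natAbs : ℤ)] :=
      Int.natCast_modEq_iff.mpr h1
    have h4 : (c.natAbs : ℤ) ∣ ((1 : ℕ) : ℤ) - ((l : ℕ) : ℤ) := Int.ModEq.dvd h3
    rw [Int.natAbs_dvd] at h4
    rw [Int.modEq_iff_dvd]
    simpa using h4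
  have hl1 : l ≡ 1 [MOD p ^ (e + 1)] := hlm.of_dvd (Dvd.intro_left _ rfl)
  have hlq' : ¬ l ∣ q := by
    intro h
    exact hlq ((Nat.prime_dvd_prime_iff_eq hl hq).mp h)
  have hord : p ∣ orderOf ((q : ZMod l) ^ M) :=
    kum l p q M e hl hp hl1 hMe (fun h => hpow (euler_of_pow hl hlp1 hlq' h))
  have h2 := H l hlN hlq hlc ⟨t, hqk, hord⟩
  rw [hφ.2 l hlN hlqS] at h2
  -- `(a_l - 2) φ(γ₀) = 0`
  have h3 : (a l - 2) * φ (Additive.ofMul γ₀) = 0 := by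
    have h4 : a l * φ (Additive.ofMul γ₀) = 2 * φ (Additive.ofMul γ₀) := by
      simpa [AddMonoidHom.smul_apply, smul_eq_mul, nsmul_eq_mul] using h2
    rw [sub_mul, h4, sub_self]
  have h5 : a l - 2 = 0 := by
    rcases mul_eq_zero.mp h3 with h | h
    · exact h
    · exact absurd h hγ₀
  apply hnE
  have hl1' : ((l : ℕ) : k) = 1 := by
    have h6 : ((l : ℕ) : k) = ((1 : ℕ) : k) := (CharP.natCast_eq_natCast k p).mpr hlp1
    simpa using h6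
  rw [hl1']
  linear_combination h5

/-- (S1T) with the relation in the form `P₁ φ = P₃ φ`. -/
theorem eq_zero_of_PP (hp : p.Prime) (hp2 : p ≠ 2) (hN : N ≠ 0) (hq : q.Prime) (hqN : ¬ q ∣ N)
    {S : Finset ℕ} {a : ℕ → k} (hNE : NEPrimeLocal p S a q)
    {φ : Additive (Gamma0 N) →+ k} (hφ : IsEigenclass N (insert q S) a φ)
    (hP : P₁ N q φ = P₃ N q φ) : φ = 0 :=
  eq_zero_of_hasT hp hp2 hN hq hqN hNE hφ (hasT_of_P hq hP)

/-- **(S1)** stage 1 in eigen form: the first component of a pair in the kernel of `r₁ + r₂`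
vanishes if it is an eigenclass (the second component is arbitrary). -/
theorem eq_zero_of_ker (hp : p.Prime) (hp2 : p ≠ 2) (hN : N ≠ 0) (hq : q.Prime) (hqN : ¬ q ∣ N)
    {S : Finset ℕ} {a : ℕ → k} (hNE : NEPrimeLocal p S a q)
    {φ₁ φ₂ : Additive (Gamma0 N) →+ k} (hφ : IsEigenclass N (insert q S) a φ₁)
    (hker : r₁ N q φ₁ + r₂ N q φ₂ = 0) : φ₁ = 0 :=
  eq_zero_of_hasT hp hp2 hN hq hqN hNE hφ (hasT_of_ker hq hqN hker)

/-- (S1), second component. -/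
theorem eq_zero_of_ker' (hp : p.Prime) (hp2 : p ≠ 2) (hN : N ≠ 0) (hq : q.Prime) (hqN : ¬ q ∣ N)
    {S : Finset ℕ} {a : ℕ → k} (hNE : NEPrimeLocal p S a q)
    {φ₁ φ₂ : Additive (Gamma0 N) →+ k} (hφ : IsEigenclass N (insert q S) a φ₂)
    (hker : r₁ N q φ₁ + r₂ N q φ₂ = 0) : φ₂ = 0 :=
  eq_zero_of_ker hp hp2 hN hq hqN hNE hφ (swap hq hqN hker)

end Fermat.Agent.S59.H161
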