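import Mathlib
import Fermat.Agent.S59.H161.Ihara2.Borel
import Fermat.Agent.S59.H161.Ihara2.Lin
import Fermat.Agent.S59.H161.Ihara2.Stage1
import Fermat.Agent.S41.H281.Eis

/-!
# S59 / cell NM / leaf IHARA2 (helper161): the case `q ≢ -1 mod p` (two Borels)

`u, v` characters of `Γ₀(N q)` with `r₁' u + r₂' v = 0` on `Γ₀(N q²)`, `q + 1` invertible in `k`,
`v` an eigenvector of `T_l` with eigenvalue `a ≠ l + 1` for ONE prime `l ≡ 1 mod q`, `l ∤ N q`.
Then `v = r₁ w` with `w = (q + 1)⁻¹ t₁ v` (`exists_r₁_add_eq_zero`):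

* `ε = v - r₁ w` vanishes on `Γ₀(N q) ∩ Γ(q)` (`Borel.lean`), so `T_l ε = (l + 1) ε` (block EIS of
  row S41);
* `w` is an eigenvector of `T_l` with eigenvalue `a` (`T_l` commutes with `t₁`), so
  `T_l ε = a ε`, and `ε = 0`.

`ihara2_caseA` : IHARA2 when `q + 1 ≠ 0` in `k`.
-/

set_option autoImplicit false

namespace Fermat.Agent.S59.H161

open CongruenceSubgroup Matrix.SpecialLinearGroup
open Fermat.Agent.S29.H642 Fermat.Agent.S41.Spec Fermat.Agent.S41.H161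
open Fermat.Agent.S59.NM
open scoped MatrixGroups

variable {k : Type} [Field k] {N q : ℕ}

/-- The core of the two-Borel argument. -/
theorem exists_r₁_add_eq_zero (hN : N ≠ 0) (hq : q.Prime) (hqN : ¬ q ∣ N)
    (hq1 : (q : k) + 1 ≠ 0) {l : ℕ} [Fact l.Prime] (hl : ¬ l ∣ N) (hl' : ¬ l ∣ N * q)
    (hlq : l ≡ 1 [MOD q]) (a : k) (ha : a ≠ (l : k) + 1)
    (u v : Additive (Gamma0 (N * q)) →+ k) (hR : r₁ (N * q) q u + r₂ (N * q) q v = 0)
    (hv : heckeTransfer hl' v = a • v) :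
    ∃ w : Additive (Gamma0 N) →+ k, r₁ N q w + v = 0 := by
  set c : k := -((q : k) + 1)⁻¹ with hc
  set w : Additive (Gamma0 N) →+ k := c • t₁ N q v with hw
  refine ⟨w, ?_⟩
  set ε : Additive (Gamma0 (N * q)) →+ k := r₁ N q w + v with hε
  -- ε vanishes on Γ₀(N q) ∩ Γ(q)
  have hε0 : ∀ γ : Gamma0 (N * q), (γ : SL(2, ℤ)) ∈ Gamma q → ε (Additive.ofMul γ) = 0 := by
    intro γ hγ
    have h1 := t₁_apply_of_mem_Gamma hN hq hqN u v hR γ hγ
    have h2 : ε (Additive.ofMul γ) =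
        c * t₁ N q v (Additive.ofMul (incl N q γ)) + v (Additive.ofMul γ) := rfl
    rw [h2, h1, hc, nsmul_eq_mul]
    push_cast
    field_simp
    ring
  -- Eisenstein
  have hE : heckeTransfer hl' ε = (l + 1) • ε :=
    Fermat.Agent.S41.H281.heckeTransfer_eq_of_vanish_modEq hl' q hlq ε hε0
  -- eigen
  have hN' : N * q ≠ 0 := Nat.mul_ne_zero hN hq.ne_zero
  have hw' : heckeTransfer hl w = a • w := by
    rw [hw, hecke_smul',
      (Fermat.Agent.S41.H281.hkStatement.{0}.2.2.2.2.2.1 N q l hl hl' hN' k v).1, hv,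
      t₁_smul', smul_comm]
  have ha' : heckeTransfer hl' ε = a • ε := by
    rw [hε, heckeTransfer_add, Fermat.Agent.S41.H281.heckeTransfer_r₁ hl hl', hw', hv,
      r₁_smul', smul_add]
  have h3 : (a - ((l : k) + 1)) • ε = 0 := by
    rw [sub_smul, ← ha', hE]
    have : ((l : k) + 1) • ε = (l + 1) • ε := by
      have := natCast_smul_hom (k := k) (l + 1) ε
      rw [← this]
      push_cast
      rfl
    rw [this, sub_self]
  rcases smul_eq_zero.mp h3 with h | h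
  · exact absurd (sub_eq_zero.mp h) ha
  · exact h

variable {p : ℕ} [CharP k p]

/-- **IHARA2, case `q ≢ -1 mod p`.** -/
theorem ihara2_caseA (hp : p.Prime) (hp2 : p ≠ 2) (hN : N ≠ 0) (hq : q.Prime) (hqN : ¬ q ∣ N)
    (hqp : q ≠ p) (hq1 : (q : k) + 1 ≠ 0) {S : Finset ℕ} {a : ℕ → k}
    (hNE : NEPrimeLocal p S a q) (hHK2 : HK2Statement)
    {z₁ z₂ z₃ : Additive (Gamma0 N) →+ k} (h₁ : IsEigenclass N (insert q S) a z₁)
    (h₂ : IsEigenclass N (insert q S) a z₂) (h₃ : IsEigenclass N (insert q S) a z₃)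
    (hP : P₁ N q z₁ + P₂ N q z₂ + P₃ N q z₃ = 0) : z₁ = 0 ∧ z₂ = 0 ∧ z₃ = 0 := by
  haveI : Fact q.Prime := ⟨hq⟩
  haveI : Fact p.Prime := ⟨hp⟩
  -- a non-Eisenstein prime `l ≡ 1 mod q`
  obtain ⟨l, hl, hlS, hlS', hlm, -, hnE, -⟩ := hNE q hq.pos (insert q N.primeFactors)
  haveI hlF : Fact l.Prime := ⟨hl⟩
  have hlq : l ≠ q := by
    rintro rfl
    exact hlS' (Finset.mem_insert_self _ _)
  have hlN : ¬ l ∣ N := by
    intro h
    exact hlS' (Finset.mem_insert_of_mem (Nat.mem_primeFactors.mpr ⟨hl, h, hN⟩))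
  have hlNq : ¬ l ∣ N * q := by
    intro h
    rcases (Nat.Prime.dvd_mul hl).mp h with h | h
    · exact hlN h
    · exact hlq ((Nat.prime_dvd_prime_iff_eq hl hq).mp h)
  have hlqS : l ∉ insert q S := by
    intro h
    rcases Finset.mem_insert.mp h with h | h
    · exact hlq h
    · exact hlS h
  -- the relation at level `N q`
  set u : Additive (Gamma0 (N * q)) →+ k := r₁ N q z₁ + r₂ N q z₂ with hu
  set v : Additive (Gamma0 (N * q)) →+ k := r₂ N q z₃ with hv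
  have hR : r₁ (N * q) q u + r₂ (N * q) q v = 0 := hP
  have hvE : heckeTransfer hlNq v = a l • v := by
    rw [hv, Fermat.Agent.S41.H281.heckeTransfer_r₂ hlN hlNq, h₃.2 l hlN hlqS, r₂_smul']
  obtain ⟨w, hw⟩ := exists_r₁_add_eq_zero hN hq hqN hq1 hlN hlNq hlm (a l) hnE u v hR hvE
  have hz₃ : z₃ = 0 := eq_zero_of_ker' hp hp2 hN hq hqN hNE h₃ hw
  -- `r₁' u = 0`, hence `u = 0`
  have hv0 : v = 0 := by rw [hv, hz₃]; rfl
  have hu0 : r₁ (N * q) q u = 0 := by
    rw [hv0] at hR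
    have : r₂ (N * q) q (0 : Additive (Gamma0 (N * q)) →+ k) = 0 := rfl
    rwa [this, add_zero] at hR
  have hqu : q • u = 0 := by
    have h := ((hHK2 N q hqN hN k).2 u).1
    rw [hu0, t₁_zero'] at h
    exact h.symm
  have hqk : (q : k) ≠ 0 := by
    intro h
    have h1 : p ∣ q := (CharP.cast_eq_zero_iff k p q).mp h
    exact hqp ((Nat.prime_dvd_prime_iff_eq hp hq).mp h1).symm
  have hu00 : u = 0 := by
    rw [← natCast_smul_hom] at hqu
    rcases smul_eq_zero.mp hqu with h | h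
    · exact absurd h hqk
    · exact h
  exact ⟨eq_zero_of_ker hp hp2 hN hq hqN hNE h₁ hu00,
    eq_zero_of_ker' hp hp2 hN hq hqN hNE h₂ hu00, hz₃⟩

end Fermat.Agent.S59.H161
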