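import Mathlib
import Fermat.Agent.S59.H161.Ihara2.Lin
import Fermat.Agent.S59.H161.Ihara2.Stage1

/-!
# S59 / cell NM / leaf IHARA2 (helper161): the case `q ≡ -1 mod p` (transfers and relation (T))

Apply `t₁'`, `t₂'` to `P₁ z₁ + P₂ z₂ + P₃ z₃ = 0` (HK2):

    r₁ (q z₁ - z₃) + r₂ (q z₂ + T_q z₃) = 0,      r₁ (T_q z₁ + q z₂) + r₂ (q z₃ - z₁) = 0,

so by stage 1 all four components vanish.  With `q = -1` in `k`: `z₃ = -z₁`, `T_q z₁ = 0`,
`z₂ = 0`, and the relation reads `P₁ z₁ = P₃ z₁`, i.e. relation (T) for `z₁`; hence `z₁ = 0` by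
`eq_zero_of_PP`.
-/

set_option autoImplicit false

namespace Fermat.Agent.S59.H161

open CongruenceSubgroup Matrix.SpecialLinearGroup
open Fermat.Agent.S29.H642 Fermat.Agent.S41.Spec Fermat.Agent.S41.H161
open Fermat.Agent.S59.NM
open scoped MatrixGroups

variable {k : Type} [Field k] {N q : ℕ} {p : ℕ} [CharP k p]

/-- The four relations obtained from the transfers (any `q ≠ p`). -/
theorem transfer_relations (hp : p.Prime) (hp2 : p ≠ 2) (hN : N ≠ 0) (hq : q.Prime)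
    (hqN : ¬ q ∣ N) {S : Finset ℕ} {a : ℕ → k}
    (hNE : NEPrimeLocal p S a q) (hHK2 : HK2Statement)
    {z₁ z₂ z₃ : Additive (Gamma0 N) →+ k} (h₁ : IsEigenclass N (insert q S) a z₁)
    (h₂ : IsEigenclass N (insert q S) a z₂) (h₃ : IsEigenclass N (insert q S) a z₃)
    (hP : P₁ N q z₁ + P₂ N q z₂ + P₃ N q z₃ = 0) :
    haveI : Fact q.Prime := ⟨hq⟩
    (q : k) • z₁ - z₃ = 0 ∧ (q : k) • z₂ + heckeTransfer hqN z₃ = 0 ∧
      heckeTransfer hqN z₁ + (q : k) • z₂ = 0 ∧ (q : k) • z₃ - z₁ = 0 := by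
  haveI : Fact q.Prime := ⟨hq⟩
  obtain ⟨hA, hB⟩ := hHK2 N q hqN hN k
  -- apply `t₁'`
  have e1 : r₁ N q ((q : k) • z₁ - z₃) + r₂ N q ((q : k) • z₂ + heckeTransfer hqN z₃) = 0 := by
    have h := congrArg (t₁ (N * q) q) hP
    rw [t₁_zero', t₁_add', t₁_add'] at h
    have a1 : t₁ (N * q) q (P₁ N q z₁) = (q : k) • r₁ N q z₁ := by
      rw [natCast_smul_hom]; exact (hB (r₁ N q z₁)).1
    have a2 : t₁ (N * q) q (P₂ N q z₂) = (q : k) • r₂ N q z₂ := by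
      rw [natCast_smul_hom]; exact (hB (r₂ N q z₂)).1
    have a3 : t₁ (N * q) q (P₃ N q z₃) = r₂ N q (heckeTransfer hqN z₃) - r₁ N q z₃ :=
      (hA z₃).2.1
    rw [a1, a2, a3] at h
    rw [r₁_sub', r₂_add', r₁_smul', r₂_smul']
    rw [← h]
    abel
  -- apply `t₂'`
  have e2 : r₁ N q (heckeTransfer hqN z₁ + (q : k) • z₂) + r₂ N q ((q : k) • z₃ - z₁) = 0 := by
    have h := congrArg (t₂ (N * q) q) hP
    rw [t₂_zero', t₂_add', t₂_add'] at h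
    have a1 : t₂ (N * q) q (P₁ N q z₁) = r₁ N q (heckeTransfer hqN z₁) - r₂ N q z₁ :=
      (hA z₁).2.2
    have a2 : t₂ (N * q) q (P₂ N q z₂) = (q : k) • r₁ N q z₂ := by
      rw [natCast_smul_hom]
      have : P₂ N q z₂ = r₂ (N * q) q (r₁ N q z₂) := ((hA z₂).1).symm
      rw [this]
      exact (hB (r₁ N q z₂)).2
    have a3 : t₂ (N * q) q (P₃ N q z₃) = (q : k) • r₂ N q z₃ := by
      rw [natCast_smul_hom]; exact (hB (r₂ N q z₃)).2
    rw [a1, a2, a3] at h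
    rw [r₁_add', r₂_sub', r₁_smul', r₂_smul']
    rw [← h]
    abel
  have hTz₁ := isEigenclass_hecke' hqN h₁
  have hTz₃ := isEigenclass_hecke' hqN h₃
  have f1 : (q : k) • z₁ - z₃ = 0 :=
    eq_zero_of_ker hp hp2 hN hq hqN hNE (isEigenclass_sub' (isEigenclass_smul' _ h₁) h₃) e1
  have f2 : (q : k) • z₂ + heckeTransfer hqN z₃ = 0 :=
    eq_zero_of_ker' hp hp2 hN hq hqN hNE (isEigenclass_add' (isEigenclass_smul' _ h₂) hTz₃) e1
  have f3 : heckeTransfer hqN z₁ + (q : k) • z₂ = 0 :=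
    eq_zero_of_ker hp hp2 hN hq hqN hNE (isEigenclass_add' hTz₁ (isEigenclass_smul' _ h₂)) e2
  have f4 : (q : k) • z₃ - z₁ = 0 :=
    eq_zero_of_ker' hp hp2 hN hq hqN hNE (isEigenclass_sub' (isEigenclass_smul' _ h₃) h₁) e2
  exact ⟨f1, f2, f3, f4⟩

/-- **IHARA2, case `q ≡ -1 mod p`.** -/
theorem ihara2_caseB (hp : p.Prime) (hp2 : p ≠ 2) (hN : N ≠ 0) (hq : q.Prime) (hqN : ¬ q ∣ N)
    (hq1 : (q : k) + 1 = 0) {S : Finset ℕ} {a : ℕ → k}
    (hNE : NEPrimeLocal p S a q) (hHK2 : HK2Statement)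
    {z₁ z₂ z₃ : Additive (Gamma0 N) →+ k} (h₁ : IsEigenclass N (insert q S) a z₁)
    (h₂ : IsEigenclass N (insert q S) a z₂) (h₃ : IsEigenclass N (insert q S) a z₃)
    (hP : P₁ N q z₁ + P₂ N q z₂ + P₃ N q z₃ = 0) : z₁ = 0 ∧ z₂ = 0 ∧ z₃ = 0 := by
  haveI : Fact q.Prime := ⟨hq⟩
  obtain ⟨f1, f2, f3, -⟩ := transfer_relations hp hp2 hN hq hqN hNE hHK2 h₁ h₂ h₃ hP
  have hqk : (q : k) = -1 := eq_neg_of_add_eq_zero_left hq1
  have h2 : (2 : k) ≠ 0 := by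
    intro h
    have h' : ((2 : ℕ) : k) = 0 := by exact_mod_cast h
    have h1 : p ∣ 2 := (CharP.cast_eq_zero_iff k p 2).mp h'
    exact hp2 ((Nat.prime_dvd_prime_iff_eq hp Nat.prime_two).mp h1)
  rw [hqk] at f1 f2 f3
  -- z₃ = -z₁
  have hz₃ : z₃ = -z₁ := by
    rw [neg_one_smul] at f1
    exact (sub_eq_zero.mp f1).symm
  -- T_q z₁ = z₂ = -T_q z₁ ... so T_q z₁ = 0
  have g2 : heckeTransfer hqN z₃ = z₂ := by
    rw [neg_one_smul] at f2
    exact (eq_of_sub_eq_zero (by rw [sub_eq_add_neg, add_comm]; exact f2))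
  have g3 : heckeTransfer hqN z₁ = z₂ := by
    rw [neg_one_smul] at f3
    exact eq_of_sub_eq_zero (by rw [sub_eq_add_neg]; exact f3)
  have g4 : z₂ = 0 := by
    have e : z₂ = -z₂ := by
      conv_lhs => rw [← g2, hz₃, hecke_neg', g3]
    have e2 : (2 : k) • z₂ = 0 := by
      rw [two_smul]
      nth_rewrite 1 [e]
      exact neg_add_cancel z₂
    rcases smul_eq_zero.mp e2 with h | h
    · exact absurd h h2
    · exact h
  -- relation (T) for z₁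
  have hPP : P₁ N q z₁ = P₃ N q z₁ := by
    rw [g4, hz₃] at hP
    have e0 : P₂ N q (0 : Additive (Gamma0 N) →+ k) = 0 := rfl
    have e1 : P₃ N q (-z₁) = -P₃ N q z₁ := rfl
    rw [e0, e1, add_zero] at hP
    exact eq_of_sub_eq_zero (by rw [sub_eq_add_neg]; exact hP)
  have hz₁ : z₁ = 0 := eq_zero_of_PP hp hp2 hN hq hqN hNE h₁ hPP
  exact ⟨hz₁, g4, by rw [hz₃, hz₁, neg_zero]⟩

end Fermat.Agent.S59.H161
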