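import Mathlib
import Fermat.Agent.S59.H161.Ihara2.CaseA
import Fermat.Agent.S59.H161.Ihara2.CaseB
import Fermat.Agent.S59.H202.HK2

/-!
# S59 / cell NM / leaf IHARA2 (helper161): `NM.Ihara2Statement` from NE' for `(k, ρ̄)`

`ihara2_of_ne : NEPrimeKProp → NM.Ihara2Statement`, where `NEPrimeKProp` is NE' for `(k, ρ̄)`
(word for word helper62's `H62.NEPrimeKStatement`): non-Eisenstein primes `l ≡ 1 mod m p` with
`q` not a `p`-th power modulo `l`.  Everything else is proved here: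

* `q ≢ -1 mod p` : two Borels (`CaseA.lean`), stage 1 (`Stage1.lean`), HK2;
* `q ≡ -1 mod p` : transfers (HK2), stage 1, and Ihara's lemma under relation (T) (`T.lean`).
-/

set_option autoImplicit false

open Polynomial

namespace Fermat.Agent.S59.H161

open CongruenceSubgroup
open Fermat.Agent.S59.NM

/-- **NE' for `(k, ρ̄)`** (non-Eisenstein primes with a Kummer condition). -/
def NEPrimeKProp : Prop :=
  ∀ (p : ℕ) [Fact p.Prime] (_hp2 : p ≠ 2) (k : Type) [Field k] [Finite k] [CharP k p]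
    (ρbar : ResidualGaloisRep k) (_habs : ρbar.IsAbsolutelyIrreducible)
    (_hsplit : ∀ σ : AlgebraicClosure ℚ ≃ₐ[ℚ] AlgebraicClosure ℚ,
      ∃ α β : k, LinearMap.charpoly (ρbar.ρ σ) = (X - C α) * (X - C β))
    (S : Finset ℕ) (_hpS : p ∈ S) (a : ℕ → k)
    (_ha : ∀ (l : ℕ), l.Prime → l ∉ S →
      ∀ B : ValuationSubring Fermat.Agent.S31.Qb, B.LiesOverPrime l →
        ∀ σ : Fermat.Agent.S31.GQ, B.IsFrobeniusAt σ l →
          LinearMap.charpoly (ρbar.ρ σ) = X ^ 2 - C (a l) * X + C ((l : k)))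
    (q : ℕ) (_hq : q.Prime) (_hqp : q ≠ p) (m : ℕ) (_hm : 0 < m) (S' : Finset ℕ),
    ∃ l : ℕ, l.Prime ∧ l ∉ S ∧ l ∉ S' ∧ l ≡ 1 [MOD m] ∧ l ≡ 1 [MOD p] ∧
      a l ≠ (l : k) + 1 ∧ ¬ (q ^ ((l - 1) / p) ≡ 1 [MOD l])

/-- IHARA2 for one system of eigenvalues `a` with NE' (no Galois representation). -/
theorem ihara2_of_local {p : ℕ} (hp : p.Prime) (hp2 : p ≠ 2) {k : Type} [Field k] [CharP k p]
    {N q : ℕ} (hN : N ≠ 0) (hq : q.Prime) (hqN : ¬ q ∣ N) (hqp : q ≠ p) {S : Finset ℕ}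
    {a : ℕ → k} (hNE : NEPrimeLocal p S a q) (hHK2 : HK2Statement)
    {z₁ z₂ z₃ : Additive (Gamma0 N) →+ k} (h₁ : IsEigenclass N (insert q S) a z₁)
    (h₂ : IsEigenclass N (insert q S) a z₂) (h₃ : IsEigenclass N (insert q S) a z₃)
    (hP : P₁ N q z₁ + P₂ N q z₂ + P₃ N q z₃ = 0) : z₁ = 0 ∧ z₂ = 0 ∧ z₃ = 0 := by
  by_cases hq1 : (q : k) + 1 = 0
  · exact ihara2_caseB hp hp2 hN hq hqN hq1 hNE hHK2 h₁ h₂ h₃ hP
  · exact ihara2_caseA hp hp2 hN hq hqN hqp hq1 hNE hHK2 h₁ h₂ h₃ hP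

/-- **IHARA2** from HK2 and NE' for `(k, ρ̄)`. -/
theorem ihara2_of_hk2_ne (hHK2 : HK2Statement) (hNE : NEPrimeKProp) : Ihara2Statement := by
  intro p hpF hp2 k _ _ _ ρbar habs hsplit N q hN hq hqN hqp S hpS a ha z₁ z₂ z₃ h₁ h₂ h₃ hP
  exact ihara2_of_local hpF.out hp2 hN hq hqN hqp
    (hNE p hp2 k ρbar habs hsplit S hpS a ha q hq hqp) hHK2 h₁ h₂ h₃ hP

/-- **IHARA2** from NE' for `(k, ρ̄)` (HK2 is `H202.hk2`, on main). -/
theorem ihara2_of_ne (hNE : NEPrimeKProp) : Ihara2Statement :=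
  ihara2_of_hk2_ne Fermat.Agent.S59.H202.hk2 hNE

end Fermat.Agent.S59.H161
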