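import Mathlib
import Fermat.Agent.S59.H161.Ihara2.Main
import Fermat.Agent.S59.H424.NEPrimeK

/-!
# S59 / cell NM / leaf IHARA2 — CLOSED (helper161)

`ihara2 : NM.Ihara2Statement`, unconditional:
`ihara2_of_ne` (this directory) applied to helper424's NE' for `(k, ρ̄)`
(`Fermat.Agent.S59.H424.nePrimeK_h424`).
-/

set_option autoImplicit false

namespace Fermat.Agent.S59.H161

/-- NE' for `(k, ρ̄)` (helper424). -/
theorem nePrimeKProp : NEPrimeKProp := @Fermat.Agent.S59.H424.nePrimeK_h424

/-- **Leaf IHARA2 of cell NM (row S59)**: Ihara's lemma for `N → N q²`, eigen form. -/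
theorem ihara2 : Fermat.Agent.S59.NM.Ihara2Statement := ihara2_of_ne nePrimeKProp

end Fermat.Agent.S59.H161
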